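import Fermat.Agent.ML.Main.Cell
import Fermat.Agent.ML.Main.LiftRho
import Fermat.Agent.ML.Gen.OfRho

/-!
# ML / Main / Fin / Gen : (GEN) for the final cell

`G` a cell in the state `Pfin`, `H : Rho.IsRhoK (lvl L ..) (p^(K+1)) G (rEB B) πE ρ Φ`, `V = VJ = G × W[p^(K+1)]` (faithful).

* transport of `LocUr / LocUnip / LocSt / LocPSt` along equivariant injective maps, products;
* the `E`-side : `locUr_EM`, `locUnip_EM`, `locSt_EM`, `locPSt_EM` (on `Rho.EM (rEB B)`);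
* `IsRhoK.locUr_VJ`, `locUnip_VJ`, `locSt_VJ`, `locPSt_VJ` : cell condition on `G` + `E`-side ⟹ the condition on ALL of `V`;
* `genHyp_fin` : all the fields of helper55's `GenHypMZ` for `J = I`, except `strict` (hypothesis).
-/

set_option autoImplicit false
set_option linter.unusedSectionVars false

noncomputable section

open AlgebraicCurve ModularCurve

namespace Fermat.Agent.ML.FinGen

open Fermat.Agent.GAL Fermat.Agent.RIB Fermat.Agent.RIB.Rho Fermat.Agent.ML.ESide Fermat.Agent.ML.Rho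
  Fermat.Agent.ML.Lift Fermat.Agent.S56 Fermat.Agent.S56.Flat

local notation "Qbar" => AlgebraicClosure ℚ
local notation "GQ" => (AlgebraicClosure ℚ ≃ₐ[ℚ] AlgebraicClosure ℚ)
local notation "M₂" => Matrix (Fin 2) (Fin 2)

/-! ### transport -/

section Transport

variable {X Y : Type*} [AddCommGroup X] [SMul GQ X] [AddCommGroup Y] [SMul GQ Y]
  (f : X →+ Y) (hf : Function.Injective f) (hg : ∀ (g : GQ) (x : X), f (g • x) = g • f x)
  {G : Set X} {G' : Set Y} (hG : ∀ x ∈ G, f x ∈ G')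

include hf hg hG

theorem locUr_of_inj {q : ℕ} (h : LocUr q G') : LocUr q G := fun A hA τ hτ x hx =>
  hf (by rw [hg]; exact h A hA τ hτ _ (hG x hx))

theorem locUnip_of_inj {q : ℕ} (h : LocUnip q G') : LocUnip q G := fun A hA τ hτ τ' hτ' x hx =>
  hf (by rw [hg, map_sub, hg]; exact h A hA τ hτ τ' hτ' _ (hG x hx))

theorem locSt_of_inj {q : ℕ} {ε : ℤ} (h : LocSt q ε G') : LocSt q ε G := by
  intro A hA σ hσ τ hτ x hx
  obtain ⟨h1, h2, h3⟩ := h A hA σ hσ τ hτ _ (hG x hx)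
  refine ⟨hf ?_, hf ?_, hf ?_⟩
  · rw [hg, map_zsmul, map_sub, hg]; exact h1
  · rw [hg, map_sub, hg, map_zsmul]; exact h2
  · rw [hg, map_zsmul, map_sub, hg, map_zsmul]; exact h3

theorem locPSt_of_inj {p : ℕ} [Fact p.Prime] {e : GQ → ℤ} {k : ℕ} (h : LocPSt p e k G') :
    LocPSt p e k G := by
  intro s₁ hs₁ s₂ hs₂ x hx a ha
  refine hf ?_
  rw [hg, map_zsmul, map_sub, hg, map_zsmul]
  exact h s₁ hs₁ s₂ hs₂ _ (hG x hx) a ha

end Transport

section Prod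

variable {X Y : Type*} [AddCommGroup X] [SMul GQ X] [AddCommGroup Y] [SMul GQ Y]

theorem locUr_prod {q : ℕ} (h1 : LocUr q (Set.univ : Set X)) (h2 : LocUr q (Set.univ : Set Y)) :
    LocUr q (Set.univ : Set (X × Y)) := fun A hA τ hτ x _ =>
  Prod.ext (h1 A hA τ hτ x.1 trivial) (h2 A hA τ hτ x.2 trivial)

theorem locUnip_prod {q : ℕ} (h1 : LocUnip q (Set.univ : Set X))
    (h2 : LocUnip q (Set.univ : Set Y)) : LocUnip q (Set.univ : Set (X × Y)) :=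
  fun A hA τ hτ τ' hτ' x _ =>
    Prod.ext (h1 A hA τ hτ τ' hτ' x.1 trivial) (h2 A hA τ hτ τ' hτ' x.2 trivial)

theorem locSt_prod {q : ℕ} {ε : ℤ} (h1 : LocSt q ε (Set.univ : Set X))
    (h2 : LocSt q ε (Set.univ : Set Y)) : LocSt q ε (Set.univ : Set (X × Y)) := by
  intro A hA σ hσ τ hτ x _
  obtain ⟨a1, a2, a3⟩ := h1 A hA σ hσ τ hτ x.1 trivial
  obtain ⟨b1, b2, b3⟩ := h2 A hA σ hσ τ hτ x.2 trivial
  exact ⟨Prod.ext a1 b1, Prod.ext a2 b2, Prod.ext a3 b3⟩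

theorem locPSt_prod {p : ℕ} [Fact p.Prime] {e : GQ → ℤ} {k : ℕ}
    (h1 : LocPSt p e k (Set.univ : Set X)) (h2 : LocPSt p e k (Set.univ : Set Y)) :
    LocPSt p e k (Set.univ : Set (X × Y)) := fun s₁ hs₁ s₂ hs₂ x _ a ha =>
  Prod.ext (h1 s₁ hs₁ s₂ hs₂ x.1 trivial a ha) (h2 s₁ hs₁ s₂ hs₂ x.2 trivial a ha)

omit [AddCommGroup Y] [SMul GQ Y] in
/-- `LocPSt` for a larger exponent. -/
theorem locPSt_mono {p : ℕ} [Fact p.Prime] {e : GQ → ℤ} {k k' : ℕ} (hk : k ≤ k') {G : Set X}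
    (h : LocPSt p e k G) : LocPSt p e k' G := fun s₁ hs₁ s₂ hs₂ x hx a ha =>
  h s₁ hs₁ s₂ hs₂ x hx a fun μ hμ => ha μ (by
    obtain ⟨d, rfl⟩ := Nat.exists_eq_add_of_le hk
    rw [pow_add, pow_mul, hμ, one_pow])

end Prod

/-! ### the `E`-side -/

section ESide

variable {W : WeierstrassCurve ℤ} {m : ℕ} (B : Module.Basis (Fin 2) (ZMod m) (TorsW W m))

/-- `Rho.EM (rEB B) → W(ℚbar)`. -/
def emPt : Rho.EM (rEB B) →+ S58.EQ W :=
  (Submodule.subtype (Submodule.torsionBy ℤ (S58.EQ W) (m : ℤ))).toAddMonoidHom.comp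
    (emEquiv B).toAddMonoidHom

theorem emPt_injective : Function.Injective (emPt B) :=
  Subtype.val_injective.comp (emEquiv B).injective

theorem emPt_gal (g : GQ) (v : Rho.EM (rEB B)) : emPt B (g • v) = g • emPt B v := by
  show ((emEquiv B (g • v) : TorsW W m) : S58.EQ W) = _
  rw [emEquiv_gal]
  rfl

theorem emPt_mem (v : Rho.EM (rEB B)) : emPt B v ∈ {x : S58.EQ W | m • x = 0} :=
  nsmul_coe_torsW W (emEquiv B v)

/-- `W[m]` is unramified at the good primes `q ∤ m`. -/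
theorem locUr_EM (hm : Odd m) {q : ℕ} (hq : q.Prime) (hcop : Nat.Coprime m q)
    (hgood : W.IsGoodPrimeFor q) : LocUr q (Set.univ : Set (Rho.EM (rEB B))) :=
  fun A hA τ hτ x _ => by
    show (rEB B τ).mulVec (x : Fin 2 → ZMod m) = x
    rw [rEB_unram B hm hq hcop hgood A hA hτ, Matrix.one_mulVec]

/-- inertia at `q ∤ m` is unipotent on `W[m]`. -/
theorem locUnip_EM (hΔ : W.Δ ≠ 0) (hm : Odd m) {q : ℕ} (hq : q.Prime) (hcop : Nat.Coprime m q)
    (hss : (q : ℤ) ∣ W.Δ → ¬ (q : ℤ) ∣ W.c₄) : LocUnip q (Set.univ : Set (Rho.EM (rEB B))) :=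
  fun A hA τ hτ τ' hτ' x _ => by
    have h := congrArg (fun M : M₂ (ZMod m) => M.mulVec (x : Fin 2 → ZMod m))
      (rEB_unip B hΔ hm hq hcop hss A hA hτ hτ')
    simp only [← Matrix.mulVec_mulVec, Matrix.sub_mulVec, Matrix.one_mulVec,
      Matrix.zero_mulVec] at h
    exact sub_eq_zero.1 h

end ESide

section ESideP

variable {W : WeierstrassCurve ℤ} {p : ℕ} {k : ℕ}
  (B : Module.Basis (Fin 2) (ZMod (p ^ k)) (TorsW W (p ^ k)))

/-- **[E-ST]** on `Rho.EM (rEB B)`. -/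
theorem locSt_EM {eps : ℕ → ℤ} (h : SignE W p eps) {q : ℕ} (hq : q.Prime) (hqp : q ≠ p)
    (hqΔ : (q : ℤ) ∣ W.Δ) : LocSt q (eps q) (Set.univ : Set (Rho.EM (rEB B))) :=
  locSt_of_inj (emPt B) (emPt_injective B) (emPt_gal B) (fun x _ => emPt_mem B x)
    ((h q hq hqp hqΔ).2 k)

/-- **[E-ORD]** on `Rho.EM (rEB B)`. -/
theorem locPSt_EM [Fact p.Prime] {eP : GQ → ℤ} (h : SignP W p eP) :
    LocPSt p eP k (Set.univ : Set (Rho.EM (rEB B))) :=
  locPSt_of_inj (emPt B) (emPt_injective B) (emPt_gal B) (fun x _ => emPt_mem B x) (h.2.2.2 k)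

end ESideP

/-! ### the faithful module `V = X × Λ²` -/

section VJ

variable {L m : ℕ} [NeZero L] [NeZero m] {R : Type} [CommRing R] [Algebra (ZMod m) R]
  {X : AddSubgroup (JZero L)} [Module R ↥X] {rE : GQ →* M₂ (ZMod m)}
  {πE : R →ₐ[ZMod m] ZMod m} {ρ : GQ →* M₂ R} {Φ : M₂ R →ₐ[R] Module.End R ↥X}
  (H : Fermat.Agent.ML.Rho.IsRhoK L m X rE πE ρ Φ)

include H

theorem locUr_VJ {q : ℕ} (h1 : LocUr q (X : Set (JZero L)))
    (h2 : LocUr q (Set.univ : Set (Rho.EM rE))) :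
    LocUr q (Set.univ : Set (VJ X rE πE ρ Φ)) :=
  locUr_prod (locUr_of_inj (XJ.incl X ρ Φ) (XJ.incl_injective X ρ Φ) H.coe_gal
    (fun x _ => (x : ↥X).2) h1) h2

theorem locUnip_VJ {q : ℕ} (h1 : LocUnip q (X : Set (JZero L)))
    (h2 : LocUnip q (Set.univ : Set (Rho.EM rE))) :
    LocUnip q (Set.univ : Set (VJ X rE πE ρ Φ)) :=
  locUnip_prod (locUnip_of_inj (XJ.incl X ρ Φ) (XJ.incl_injective X ρ Φ) H.coe_gal
    (fun x _ => (x : ↥X).2) h1) h2

theorem locSt_VJ {q : ℕ} {ε : ℤ} (h1 : LocSt q ε (X : Set (JZero L)))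
    (h2 : LocSt q ε (Set.univ : Set (Rho.EM rE))) :
    LocSt q ε (Set.univ : Set (VJ X rE πE ρ Φ)) :=
  locSt_prod (locSt_of_inj (XJ.incl X ρ Φ) (XJ.incl_injective X ρ Φ) H.coe_gal
    (fun x _ => (x : ↥X).2) h1) h2

theorem locPSt_VJ {p : ℕ} [Fact p.Prime] {e : GQ → ℤ} {k : ℕ}
    (h1 : LocPSt p e k (X : Set (JZero L))) (h2 : LocPSt p e k (Set.univ : Set (Rho.EM rE))) :
    LocPSt p e k (Set.univ : Set (VJ X rE πE ρ Φ)) :=
  locPSt_prod (locPSt_of_inj (XJ.incl X ρ Φ) (XJ.incl_injective X ρ Φ) H.coe_gal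
    (fun x _ => (x : ↥X).2) h1) h2

end VJ

/-! ### ramification at the distinguished place -/

/-- `Ram` at the distinguished place. -/
theorem exists_inert_of_ram {p : ℕ} {rbar0 : GQ →* M₂ (ZMod p)} {v : Nat.Primes}
    (h : Ram rbar0 (v : ℕ)) : ∃ σ ∈ inert v, rbar0 σ ≠ 1 := by
  obtain ⟨A, hA, σ, hσ, hne⟩ := h
  obtain ⟨g, rfl⟩ := Bridge.exists_smul_eq v.2 (liesOverPrime_primeLocalPlace v) hA
  rw [Bridge.mem_inertia_smul_iff v.2 (liesOverPrime_primeLocalPlace v)] at hσ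
  refine ⟨_, hσ, fun h1 => hne ?_⟩
  rw [map_mul, map_mul] at h1
  have h2 : rbar0 g * (rbar0 g⁻¹ * rbar0 σ * rbar0 g) * rbar0 g⁻¹ = rbar0 σ := by
    have e : rbar0 g * rbar0 g⁻¹ = 1 := by rw [← map_mul, mul_inv_cancel, map_one]
    calc rbar0 g * (rbar0 g⁻¹ * rbar0 σ * rbar0 g) * rbar0 g⁻¹
        = (rbar0 g * rbar0 g⁻¹) * rbar0 σ * (rbar0 g * rbar0 g⁻¹) := by noncomm_ring
      _ = rbar0 σ := by rw [e, one_mul, mul_one]
  rw [← h2, h1, mul_one, ← map_mul, mul_inv_cancel, map_one]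

/-! ### the final cell -/

section Final

variable {W : WeierstrassCurve ℤ} {p : ℕ} [Fact p.Prime] {T : Finset ℕ}
  {b : Module.Basis (Fin 2) (ZMod p) (TorsW W p)} {L₀ : ℕ} [NeZero L₀] {eps : ℕ → ℤ}
  {eP : GQ → ℤ} (X : LCtx W p T b L₀ eps eP) {t a K : ℕ} {qv : Fin t → Nat.Primes}
  (hqT : ∀ i, ((qv i : Nat.Primes) : ℕ) ∉ T) (haK : a ≤ K + 1)
  {L : ℕ} [NeZero L] (hL : L = cellLevel L₀ (Pfin W (rbarB b) L₀))
  {G : AddSubgroup (JZero (lvl L (extP qv) t))}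
  (hG : IsCell p T W.apOfModel (rbarB b) eps eP L qv a (Pfin W (rbarB b) L₀) G)
  {B : Module.Basis (Fin 2) (ZMod (p ^ (K + 1))) (TorsW W (p ^ (K + 1)))}
  (hB : ∀ i, redK W p K (B i) = b i)

include X haK hG hB in
/-- the context of `ML/Main/LiftRho.lean`. -/
theorem topCtx_fin : TopCtx W p b K B (lvl L (extP qv) t) G where
  hΔ := X.H.hΔ
  hss := X.H.hss
  hp2 := X.H.ne_two
  hirr := X.H.hirr
  hB := hB
  hXm := fun x hx => by
    obtain ⟨d, hd⟩ := Nat.exists_eq_add_of_le haK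
    rw [hd, pow_add, mul_comm, mul_smul, (hG.box x hx).1, smul_zero]

include hG in
theorem finite_cell : Finite ↥G :=
  Set.Finite.to_subtype ((finite_torsion_JZero _ (p ^ a) (pow_ne_zero _ (Fact.out : p.Prime).ne_zero)).subset
    fun x hx => (hG.box x hx).1)

theorem mem_Pfin {q : ℕ} : q ∈ Pfin W (rbarB b) L₀ ↔
    (q.Prime ∧ (q : ℤ) ∣ W.Δ ∧ W.Δ ≠ 0) ∧ (¬ q ∣ L₀ ∨ (q = 2 ∧ ¬ Ram (rbarB b) 2)) := by
  classical
  rw [Pfin, Finset.mem_filter, Nat.mem_primeFactors, Int.natCast_dvd, Int.natAbs_ne_zero]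

include X hL in
/-- the primes of the level of the final cell lie in `T`. -/
theorem mem_T_of_dvd_L {r : ℕ} (hr : r.Prime) (hd : r ∣ L) : r ∈ T := by
  rw [hL, cellLevel] at hd
  rcases (Nat.Prime.dvd_mul hr).1 hd with h | h
  · exact X.BP.levT r hr (h.mul_right p)
  · obtain ⟨q, hq, hrq⟩ := (Prime.dvd_finsetProd_iff hr.prime _).1 h
    have hq' := (mem_Pfin.1 (Finset.mem_of_mem_erase hq)).1
    rw [(Nat.prime_dvd_prime_iff_eq hr hq'.1).1 hrq]
    exact X.hbadT q hq'.1 hq'.2.1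

include X hL hqT in
/-- outside `T` and the Taylor-Wiles primes. -/
theorem not_dvd_level {q : Nat.Primes} (hq : q ∉ toP T ∪ Finset.univ.image qv) :
    ¬ (q : ℕ) ∣ lvl L (extP qv) t * p ∧ W.IsGoodPrimeFor q := by
  rw [Finset.mem_union, not_or, mem_toP'] at hq
  refine ⟨fun hd => ?_, fun hd => hq.1 (X.hbadT q q.2 hd)⟩
  rcases (Nat.Prime.dvd_mul q.2).1 hd with h | h
  · rcases dvd_lvl_cases t q.2 h with h | ⟨j, hj⟩
    · exact hq.1 (mem_T_of_dvd_L X hL q.2 h)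
    · exact hq.2 (Finset.mem_image.2 ⟨j, Finset.mem_univ j, (Subtype.ext hj).symm⟩)
  · rw [(Nat.prime_dvd_prime_iff_eq q.2 Fact.out).1 h] at hq
    exact hq.1 X.C.p_mem

include X hL hqT in
/-- `W` good at `p` ⟹ `p` does not divide the level. -/
theorem not_p_dvd_level (hgood : W.IsGoodPrimeFor p) : ¬ p ∣ lvl L (extP qv) t := by
  intro hd
  rcases dvd_lvl_cases t Fact.out hd with h | ⟨j, hj⟩
  · rw [hL, cellLevel] at h
    rcases (Nat.Prime.dvd_mul Fact.out).1 h with h | h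
    · exact X.BP.goodp hgood h
    · obtain ⟨q, hq, hrq⟩ := (Prime.dvd_finsetProd_iff (Fact.out : p.Prime).prime _).1 h
      have hq' := (mem_Pfin.1 (Finset.mem_of_mem_erase hq)).1
      rw [← (Nat.prime_dvd_prime_iff_eq Fact.out hq'.1).1 hrq] at hq'
      exact hgood hq'.2.1
  · exact hqT j (hj ▸ X.C.p_mem)

include X hL in
/-- `W` bad at `p` ⟹ `p` divides the level. -/
theorem p_dvd_L (hbad : (p : ℤ) ∣ W.Δ) : p ∣ L := by
  rw [hL, cellLevel]
  by_cases h : p ∣ L₀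
  · exact h.mul_right _
  · refine Dvd.dvd.mul_left (Finset.dvd_prod_of_mem _ (Finset.mem_erase.2 ⟨X.C.hp2, ?_⟩)) _
    exact mem_Pfin.2 ⟨⟨Fact.out, hbad, X.H.hΔ⟩, Or.inl h⟩

variable {R : Type} [CommRing R] [Algebra (ZMod (p ^ (K + 1))) R] [Module R ↥G]
  {πE : R →ₐ[ZMod (p ^ (K + 1))] ZMod (p ^ (K + 1))} {ρ : GQ →* M₂ R}
  {Φ : M₂ R →ₐ[R] Module.End R ↥G}
  (H : Fermat.Agent.ML.Rho.IsRhoK (lvl L (extP qv) t) (p ^ (K + 1)) G (rEB B) πE ρ Φ)

theorem coprime_pow {q : ℕ} (hq : q.Prime) (hqp : q ≠ p) : Nat.Coprime (p ^ (K + 1)) q :=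
  Nat.Coprime.pow_left _ ((Nat.coprime_primes Fact.out hq).2 (Ne.symm hqp))

include X hG H in
/-- the raised primes : Steinberg type on ALL of `V`. -/
theorem locSt_fin {q : ℕ} (hq : q ∈ Pfin W (rbarB b) L₀) (hqp : q ≠ p) :
    LocSt q (eps q) (Set.univ : Set (VJ G (rEB B) πE ρ Φ)) :=
  locSt_VJ H (hG.st q hq hqp).1 (locSt_EM B X.sgn (mem_Pfin.1 hq).1.1 hqp (mem_Pfin.1 hq).1.2.1)

include X hG H in
/-- unipotent inertia on ALL of `V` at the bad primes of `W`. -/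
theorem locUnip_fin {q : ℕ} (hq : q.Prime) (hqp : q ≠ p) (hqΔ : (q : ℤ) ∣ W.Δ) :
    LocUnip q (Set.univ : Set (VJ G (rEB B) πE ρ Φ)) := by
  refine locUnip_VJ H ?_ (locUnip_EM B X.H.hΔ (odd_pow_of_ne_two X.H.ne_two _) hq
    (coprime_pow hq hqp) (X.H.hss q hq))
  by_cases hP : q ∈ Pfin W (rbarB b) L₀
  · exact (hG.st q hP hqp).2
  · refine hG.unip q hq hqp ?_
    rw [mem_Pfin, not_and, not_or, not_not, not_and, not_not] at hP
    obtain ⟨h1, h2⟩ := hP ⟨hq, hqΔ, X.H.hΔ⟩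
    by_cases hq2 : q = 2
    · rw [hq2]; exact h2 hq2
    · exact X.BP.ram q hq h1 hq2 hqp

include X hG hB H in
/-- `V` is unramified at the good primes of `W` in `T`. -/
theorem locUr_fin {q : ℕ} (hq : q.Prime) (hqp : q ≠ p) (hqT : q ∈ T)
    (hgood : W.IsGoodPrimeFor q) : LocUr q (Set.univ : Set (VJ G (rEB B) πE ρ Φ)) := by
  refine locUr_VJ H (hG.ur q hq hqT (fun h => hgood (mem_Pfin.1 h).1.2.1) hqp ?_)
    (locUr_EM B (odd_pow_of_ne_two X.H.ne_two _) hq (coprime_pow hq hqp) hgood)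
  rintro ⟨A, hA, σ, hσ, hne⟩
  refine hne ?_
  rw [← rEB_map_cast b B hB, rEB_unram B (odd_pow_of_ne_two X.H.ne_two _) hq (coprime_pow hq hqp)
    hgood A hA hσ]
  exact Matrix.map_one _ (map_zero _) (map_one _)

include X haK hL hG H in
/-- strictly ordinary at `p` on ALL of `V`, if `W` is bad at `p`. -/
theorem locPSt_fin (hbad : (p : ℤ) ∣ W.Δ) :
    LocPSt p eP (K + 1) (Set.univ : Set (VJ G (rEB B) πE ρ Φ)) :=
  locPSt_VJ H (locPSt_mono haK (hG.atp (p_dvd_L X hL hbad))) (locPSt_EM B (X.sgnP hbad))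

omit [NeZero L₀] in
/-- integers act on `V` through `R`. -/
theorem intCast_smul_VJ (n : ℤ) (v : VJ G (rEB B) πE ρ Φ) : ((n : ℤ) : R) • v = n • v :=
  Int.cast_smul_eq_zsmul R n v

include X hqT haK hL hG hB H in
/-- **(GEN) for the final cell** : all the fields of `GenHypMZ`, `J = I`, except `strict`. -/
theorem genHyp_fin [IsLocalRing R] (Rs : Finset Nat.Primes)
    (hRs : ∀ v ∈ toP T, v ∉ Rs → v ≠ ExtCitation.pPrime p → (v : ℕ) ∈ Pfin W (rbarB b) L₀ →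
      Ram (rbarB b) (v : ℕ))
    (I : Ideal R) (hI : ∀ a ∈ I, pi0 πE a = 0)
    (hstrict : ∀ v ∈ Rs, ∃ M : M₂ R, IsUnit (M.map (pi0 πE)) ∧
      ∀ σ ∈ CFT.decomp v, ConjConst ℤ I M (ρ σ)) :
    GenHypMZ p (rbarB b) (toP T) (Finset.univ.image qv) Rs (pi0 πE) ρ I := by
  have C := topCtx_fin X haK hG hB
  have := finite_cell hG
  have hadj : Algebra.adjoin R (Set.range ρ) = ⊤ := X.C.adjoin_range_rho' (C.lift H)
  have hann : (⊤ : Submodule R (VJ G (rEB B) πE ρ Φ)).annihilator = ⊥ := by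
    rw [eq_bot_iff]
    intro a ha
    exact H.rhoAct.faithful a fun v => Submodule.mem_annihilator.1 ha v Submodule.mem_top
  have key := GenHypMZ.of_act (V := VJ G (rEB B) πE ρ Φ) X.C H.rhoAct hadj (C.lift H) (C.det_int H)
    (C.tr_int H) (fun a ha => TopCtx.isUnit_of_pi0 H ha) (C.level H) (toP T)
    (Finset.univ.image qv) Rs ?_ ⊤ (fun _ _ _ => Submodule.mem_top) ?_ I hI ?_ ?_ ?_ ?_
  · rwa [hann, bot_sup_eq] at key
  · -- unramified outside
    intro q hq A hA σ hσ v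
    obtain ⟨h1, h2⟩ := not_dvd_level X hqT hL hq
    have h3 := C.unram H q.2 h1 h2 hA hσ
    rw [← H.rhoAct.act, h3, map_one, Module.End.one_apply]
  · -- `V ≠ 0`
    intro h
    have h1 : (1 : R) = 0 := H.rhoAct.faithful 1 fun v => by
      have : v ∈ (⊥ : Submodule R (VJ G (rEB B) πE ρ Φ)) := h ▸ Submodule.mem_top
      rw [(Submodule.mem_bot R).1 this, smul_zero]
    exact one_ne_zero h1
  · rw [hann, bot_sup_eq]
    exact hstrict
  · -- at `p`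
    by_cases hbad : (p : ℤ) ∣ W.Δ
    · refine Or.inr ⟨fun σ => ((eP σ : ℤ) : R), fun σ hσ x _ => ?_, fun σ hσ τ hτ x _ => ?_⟩
      · show ((eP σ : ℤ) : R) • x = x
        rw [(X.sgnP hbad).2.1 σ hσ, Int.cast_one, one_smul]
      · show σ • (τ • x - ((eP τ : ℤ) : R) • x)
          = ((ρ σ).det * ((eP σ : ℤ) : R)) • (τ • x - ((eP τ : ℤ) : R) • x)
        have h := locPSt_fin X haK hL hG H hbad σ hσ τ hτ x trivial
          (chiM (p ^ (K + 1)) σ).val (fun μ hμ => cycloChar_spec _ σ hμ)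
        rw [intCast_smul_VJ, h, H.det]
        conv_rhs => rw [← ZMod.natCast_zmod_val (chiM (p ^ (K + 1)) σ), map_natCast,
          ← Int.cast_natCast (R := R), ← Int.cast_mul, intCast_smul_VJ]
    · exact Or.inl (H.hasFlat (not_p_dvd_level X hqT hL hbad) (K + 1) C.hXm
        (hasFlat_EM Fact.out X.H.ne_two hbad
          (liesOverPrime_primeLocalPlace (ExtCitation.pPrime p)) (K + 1) B))
  · -- `det = 1` on inertia
    intro v _ hvp σ hσ
    exact C.det_inertia H v.2 (fun e => hvp (Subtype.ext e)) (liesOverPrime_primeLocalPlace v) hσ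
  · -- minimality
    intro v hv hvR hvp
    have hvp' : (v : ℕ) ≠ p := fun e => hvp (Subtype.ext e)
    by_cases hbad : ((v : ℕ) : ℤ) ∣ W.Δ
    · refine Or.inr ⟨exists_inert_of_ram ?_, fun σ hσ x _ =>
        locUnip_fin X hG H v.2 hvp' hbad _ (liesOverPrime_primeLocalPlace v) σ hσ σ hσ x trivial⟩
      by_cases hP : (v : ℕ) ∈ Pfin W (rbarB b) L₀
      · exact hRs v hv hvR hvp hP
      · rw [mem_Pfin, not_and, not_or, not_not, not_and, not_not] at hP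
        obtain ⟨h1, h2⟩ := hP ⟨v.2, hbad, X.H.hΔ⟩
        by_cases hq2 : (v : ℕ) = 2
        · rw [hq2]; exact h2 hq2
        · exact X.BP.ram v v.2 h1 hq2 hvp'
    · exact Or.inl fun σ hσ x _ => locUr_fin X hG hB H v.2 hvp' (mem_toP'.1 hv) hbad _
        (liesOverPrime_primeLocalPlace v) σ hσ x trivial

end Final

end Fermat.Agent.ML.FinGen
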