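import Fermat.Agent.ML.Raise.RelCell
import Fermat.Agent.ML.Raise.RelSemi
import Fermat.Agent.ML.Hard.LocH

/-!
# ML / Main / Fin / LocPkg : the local package at a RAISED prime `v ≠ p`, over a FAITHFUL module `V`

`H : RhoAct ρ Φ` on `V`, `R` local with residue map `π0 : R →+* ZMod p`, `rbar0` unramified at `v`,
`LocSt v ε` and `LocUnip v` on ALL of `V`.

* `trace_frob` : `tr ρ(φ) = ε (v + 1)` in `R`;
* `exists_soft` : Frobenius NOT scalar ⟹ ONE variable `b ∈ ker π0` : `b ∈ I ⟹` the field `strict` of `GenHypMZ` modulo `I`;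
* `exists_hard` : Frobenius scalar ⟹ SIX variables `x ∈ ker π0` with the scroll relations `Scroll x (p D)` :
  `x j ∈ I ⟹` the field `strict` modulo `I`.
-/

set_option autoImplicit false
set_option linter.unusedSectionVars false

noncomputable section

namespace Fermat.Agent.ML.FinGen

open Matrix Fermat.Agent.RIB Fermat.Agent.ML Fermat.Agent.ML.Raise Fermat.Agent.S56 ExtCitation
open CFT (decomp)

local notation "Qbar" => AlgebraicClosure ℚ
local notation "M₂" => Matrix (Fin 2) (Fin 2)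

variable {R V : Type} [CommRing R] [AddCommGroup V] [Module R V] [DistribMulAction GQ V]
  {ρ : GQ →* M₂ R} {Φ : M₂ R →ₐ[R] Module.End R V} (H : RhoAct ρ Φ)
  {p : ℕ} [Fact p.Prime] (hp2 : p ≠ 2) {π0 : R →+* ZMod p} {rbar0 : GQ →* M₂ (ZMod p)}
  (hlift : ∀ σ, (ρ σ).map π0 = rbar0 σ)
  {v : Nat.Primes} (hvp : (v : ℕ) ≠ p) {ε : ℤ} (hε : ε * ε = 1)
  (hst : LocSt (v : ℕ) ε (Set.univ : Set V)) (hun : LocUnip (v : ℕ) (Set.univ : Set V))
  {φ : GQ} (hφ : (primeLocalPlace v).IsFrobeniusAt φ (v : ℕ))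
  (hdet : (ρ φ).det = ((v : ℕ) : R)) (hdetI : ∀ σ ∈ inert v, (ρ σ).det = 1)

theorem top_annihilator_eq_bot (H : RhoAct ρ Φ) : (⊤ : Submodule R V).annihilator = ⊥ := by
  rw [eq_bot_iff]
  intro a ha
  exact H.faithful a fun x => Submodule.mem_annihilator.1 ha x Submodule.mem_top

include H hε hst hφ hdet in
/-- `tr ρ(φ) = ε (v + 1)`. -/
theorem trace_frob : (ρ φ).trace = (ε : R) * (((v : ℕ) : R) + 1) := by
  have h := Hard.c_mem_of_loc H ⊤ (fun _ _ _ => Submodule.mem_top) ⊥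
    (fun s hs => (Submodule.mem_bot R).2 (H.faithful s fun x => hs x Submodule.mem_top))
    (σ := φ) (τ := 1) (v : ℕ) ε hε hdet (by rw [map_one, Matrix.det_one])
    (fun x _ => one_smul _ _)
    (fun x _ => (hst _ (liesOverPrime_primeLocalPlace v) φ hφ 1 (one_mem _) x trivial).2.2)
    (fun x _ => one_smul _ _)
  exact sub_eq_zero.1 ((Submodule.mem_bot R).1 h)

include H hlift hε hst hφ hdet in
theorem trace_rbar : π0 (ρ φ).trace = (ε : ZMod p) * (((v : ℕ) : ZMod p) + 1) := by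
  rw [trace_frob H hε hst hφ hdet, map_mul, map_add, map_one, map_natCast, map_intCast]

/-- `π0` of a conjugate of `ρ τ - 1` vanishes when `rbar0 τ = 1`. -/
theorem map_conj_sub_one {τ : GQ} (hlift : ∀ σ, (ρ σ).map π0 = rbar0 σ) (hτ : rbar0 τ = 1)
    (Q Q' : M₂ R) (i j : Fin 2) : π0 ((Q' * (ρ τ - 1) * Q) i j) = 0 := by
  have e : (Q' * (ρ τ - 1) * Q).map π0 = 0 := by
    have e1 : (ρ τ - 1).map π0 = 0 := by
      have : (ρ τ - 1).map π0 = (ρ τ).map π0 - (1 : M₂ R).map π0 :=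
        Matrix.map_sub _ (map_sub π0) _ _
      rw [this, hlift, hτ, Matrix.map_one _ (map_zero _) (map_one _), sub_self]
    rw [Matrix.map_mul, Matrix.map_mul, e1, mul_zero, zero_mul]
  exact congrFun (congrFun e i) j

variable [IsLocalRing R] (hcont : GaloisFactorsThroughFiniteLevel ρ)
  (hadj : Algebra.adjoin R (Set.range ρ) = ⊤) (hloc : ∀ a : R, π0 a ≠ 0 → IsUnit a)
  (hker : ∀ a : R, π0 a = 0 → IsNilpotent a) {m : ℕ} (hm : (m : R) = 0)
  (hmv : Nat.Coprime m (v : ℕ)) (hunr : ∀ σ ∈ inert v, rbar0 σ = 1)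

include H hp2 hlift hvp hε hst hun hφ hdet hdetI hcont hadj hloc hker hm hmv hunr in
/-- **the local package at a SOFT raised prime** : one variable. -/
theorem exists_soft (hns : ∀ c : ZMod p, rbar0 φ ≠ c • (1 : M₂ (ZMod p))) :
    ∃ b : R, π0 b = 0 ∧ ∀ I : Ideal R, b ∈ I →
      ∃ M : M₂ R, IsUnit (M.map π0) ∧ ∀ σ ∈ decomp v, ConjConst ℤ I M (ρ σ) := by
  have hA := liesOverPrime_primeLocalPlace v
  have htr := trace_rbar H hlift hε hst hφ hdet
  have hunip : ∀ σ ∈ inert v, ∀ x : V, σ • (σ • x - x) = σ • x - x := fun σ hσ x =>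
    hun _ hA σ hσ σ hσ x trivial
  have hst' : LocSt (v : ℕ) ε ((⊤ : Submodule R V) : Set V) := by
    rw [Submodule.top_coe]; exact hst
  by_cases hq1 : p ∣ (v : ℕ) - 1
  · -- semi-hard
    have hv1 : ¬ p ∣ (v : ℕ) + 1 := by
      intro h
      have h2 : p ∣ 2 := by
        have := (Nat.dvd_sub h hq1)
        have e : (v : ℕ) + 1 - ((v : ℕ) - 1) = 2 := by
          have := v.2.one_lt
          omega
        rwa [e] at this
      exact hp2 ((Nat.prime_dvd_prime_iff_eq Fact.out Nat.prime_two).1 h2)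
    obtain ⟨τ, b, Q, Q', D⟩ := exists_semiData' H hcont hp2 π0 hloc hker v hvp hv1 hφ hε hdet hdetI
      hunip (fun σ hσ x => by
        have h1 := (hst _ hA φ hφ σ hσ x trivial).1
        rw [h1, smul_zsmul_comm', h1, smul_smul, ← natCast_zsmul]
        congr 1
        have : ε * (v : ℕ) * (ε * (v : ℕ)) = (ε * ε) * ((v : ℕ) : ℤ) ^ 2 := by ring
        rw [this, hε, one_mul]
        push_cast
        ring) htr (fun c => by rw [hlift]; exact hns c)
    refine ⟨b, ?_, fun I hb => ?_⟩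
    · have h := map_conj_sub_one hlift (hunr τ D.tame) Q Q' 0 1
      rw [D.form.conj_tu_sub] at h
      simpa using h
    · have h := D.strict_raised H hcont hm hmv π0 ⊤ (fun _ _ _ => Submodule.mem_top) I hst' hb
      rwa [top_annihilator_eq_bot H, bot_sup_eq] at h
  · obtain ⟨τ, f1, f2, b, g, Q, Q', D⟩ := exists_stData' H hcont hp2 π0 hloc hker v.2 hvp hq1 hA hφ
      hε hdet hunip htr
    refine ⟨b, ?_, fun I hb => ?_⟩
    · have h := map_conj_sub_one hlift (hunr τ D.mem) Q Q' 0 1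
      rw [D.form.conj_tu_sub] at h
      simpa using h
    · have h := D.strict_raised H hadj hcont ⊤ (fun _ _ _ => Submodule.mem_top) hst' I hb π0
      rwa [top_annihilator_eq_bot H, bot_sup_eq] at h

include H hp2 hlift hε hst hφ hdet in
/-- scalar Frobenius ⟹ `v ≡ 1` mod `p` and the scalar is `ε`. -/
theorem scalar_eq {c : ZMod p} (hs : rbar0 φ = c • (1 : M₂ (ZMod p))) :
    ((v : ℕ) : ZMod p) = 1 ∧ c = (ε : ZMod p) := by
  have htr := trace_rbar H hlift hε hst hφ hdet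
  have h2 : (2 : ZMod p) ≠ 0 := by
    intro h
    have h' : ((2 : ℕ) : ZMod p) = 0 := by exact_mod_cast h
    rw [ZMod.natCast_eq_zero_iff] at h'
    exact hp2 ((Nat.prime_dvd_prime_iff_eq Fact.out Nat.prime_two).1 h')
  have hε' : (ε : ZMod p) * (ε : ZMod p) = 1 := by
    exact_mod_cast congrArg (Int.cast : ℤ → ZMod p) hε
  have e1 : π0 (ρ φ).trace = 2 * c := by
    have : π0 (ρ φ).trace = ((ρ φ).map π0).trace := by
      rw [Matrix.trace_fin_two, Matrix.trace_fin_two, map_add]; rfl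
    rw [this, hlift, hs, Matrix.trace_fin_two]
    simp
    ring
  have e2 : ((v : ℕ) : ZMod p) = c * c := by
    have : π0 (ρ φ).det = ((ρ φ).map π0).det := by
      rw [RingHom.map_det]; rfl
    rw [hdet, map_natCast, hlift, hs, Matrix.det_fin_two] at this
    simpa using this
  rw [e1] at htr
  have h3 : (((v : ℕ) : ZMod p) - 1) * (((v : ℕ) : ZMod p) - 1) = 0 := by
    have : (2 * c) * (2 * c) = (((v : ℕ) : ZMod p) + 1) * (((v : ℕ) : ZMod p) + 1) := by
      rw [htr]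
      linear_combination (((v : ℕ) : ZMod p) + 1) * (((v : ℕ) : ZMod p) + 1) * hε'
    linear_combination -this - 4 * e2
  have h4 : ((v : ℕ) : ZMod p) = 1 := sub_eq_zero.1 (mul_self_eq_zero.1 h3)
  refine ⟨h4, ?_⟩
  rw [h4] at htr
  have : 2 * (c - (ε : ZMod p)) = 0 := by linear_combination htr
  exact sub_eq_zero.1 ((mul_eq_zero.1 this).resolve_left h2)

include H hp2 hlift hvp hε hst hun hφ hdet hdetI hcont hker hunr in
/-- **the local package at a HARD raised prime** : six variables with the scroll relations. -/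
theorem exists_hard {c : ZMod p} (hs : rbar0 φ = c • (1 : M₂ (ZMod p))) :
    ∃ (x : Fin 6 → R) (D : ℤ), Hard.Scroll x ((((p : ℤ) * D : ℤ)) : R) ∧ (∀ j, π0 (x j) = 0) ∧
      ∀ I : Ideal R, (∀ j, x j ∈ I) →
        ∃ M : M₂ R, IsUnit (M.map π0) ∧ ∀ σ ∈ decomp v, ConjConst ℤ I M (ρ σ) := by
  have hp : p.Prime := Fact.out
  have hA := liesOverPrime_primeLocalPlace v
  obtain ⟨hv1, hc⟩ := scalar_eq H hp2 hlift hε hst hφ hdet hs
  have htrR := trace_frob H hε hst hφ hdet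
  have hεR : (ε : R) * (ε : R) = 1 := by exact_mod_cast congrArg (Int.cast : ℤ → R) hε
  -- the tame generator
  obtain ⟨N, hpN⟩ : IsNilpotent ((p : ℕ) : R) := hker _ (by rw [map_natCast, ZMod.natCast_self])
  have hI : (Ideal.span {(p : R)}) ^ N = ⊥ := by
    rw [Ideal.span_singleton_pow, hpN, Ideal.span_singleton_eq_bot]
  have hpI : ((p : ℕ) : R) ∈ Ideal.span {(p : R)} := Ideal.mem_span_singleton_self _
  have hsq : ∀ σ ∈ inert v, (ρ σ - 1) * (ρ σ - 1) = 0 := fun σ hσ =>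
    H.sq_zero_of_unip (hun _ hA σ hσ σ hσ · trivial)
  have hunI : ∀ σ ∈ inert v, ∀ i j, (ρ σ ^ (p ^ 1) - 1) i j ∈ Ideal.span {(p : R)} := by
    intro σ hσ i j
    have e1 : ρ σ = 1 + (ρ σ - 1) := by abel
    have e2 : ρ σ ^ (p ^ 1) - 1 = (p : R) • (ρ σ - 1) := by
      rw [pow_one]
      conv_lhs => rw [e1]
      rw [Raise.one_add_pow_of_sq_zero _ (hsq σ hσ) p]
      abel
    rw [e2, Matrix.smul_apply, smul_eq_mul]
    exact Ideal.mul_mem_right _ _ hpI
  obtain ⟨τ, hτ, hgen⟩ := exists_tame_gen hp v.2 hvp hA hcont hI hpI 1 hunI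
  -- `v - 1 = p D`
  obtain ⟨D, hD⟩ : (p : ℤ) ∣ ((v : ℕ) : ℤ) - 1 := by
    rw [← ZMod.intCast_zmod_eq_zero_iff_dvd]
    push_cast
    rw [hv1, sub_self]
  have htrN : (ρ τ - 1).trace = 0 :=
    Hard.trace_eq_zero_of_sq_zero _ (hsq τ hτ) (by rw [add_sub_cancel, hdetI τ hτ])
  have hNG : (ρ τ - 1) * (ρ φ - (ε : R) • (1 : M₂ R)) = 0 := by
    refine H.inj _ fun x => ?_
    have h1 := Hard.phi_sub_mul_sub' H τ φ 1 (ε : R) x
    rw [one_smul, one_smul] at h1
    rw [h1, Int.cast_smul_eq_zsmul, (hst _ hA φ hφ τ hτ x trivial).2.1, sub_self]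
  refine ⟨Hard.locVar (ρ φ) (ρ τ - 1) (ε : R), D, ?_, fun j => ?_, fun I hx => ⟨1,
    Hard.isUnit_one_map π0, ?_⟩⟩
  · have h := Hard.scroll_locVar (ρ φ) (ρ τ - 1) ((v : ℕ) : R) (ε : R) hεR hdet htrN (hsq τ hτ) hNG
      htrR
    have e : (((v : ℕ) : R) - 1) = ((((p : ℤ) * D : ℤ)) : R) := by
      rw [← hD]; push_cast; ring
    rwa [e] at h
  · refine Hard.map_locVar_eq_zero (ρ φ) (ρ τ - 1) (ε : R) π0 hεR ?_ ?_ j
    · rw [hlift, hs, hc, map_intCast]
    · have : (ρ τ - 1).map π0 = (ρ τ).map π0 - (1 : M₂ R).map π0 :=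
        Matrix.map_sub _ (map_sub π0) _ _
      rw [this, hlift, hunr τ hτ, Matrix.map_one _ (map_zero _) (map_one _), sub_self]
  · exact Hard.strict_hard hcont v hφ (p ^ (1 + N))
      (Nat.Coprime.pow_left _ ((Nat.coprime_primes hp v.2).2 (Ne.symm hvp)))
      (fun σ hσ => pow_inertia_eq_one hI hpI 1 hunI hσ) hgen ε hε I
      (by rw [htrR, sub_self]; exact I.zero_mem) (by rw [htrN]; exact I.zero_mem) hx

end Fermat.Agent.ML.FinGen
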