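import Fermat.Agent.ML.Main.Cell
import Fermat.Agent.ML.Rho.Joint
import Fermat.Agent.ML.Hard.Model

/-!
# ML / Main / Fin / Spec : the ONE contract behind `FinCellStmt`

`FinGenStmt` = (GEN) + the local relations for the JOINT ring `R` of a cell `G` in the FINAL state `Pfin` and of `W[p^(K+1)]`:
the maximal ideal of `R` is generated by `p` and by local variables `val : (Hr × Fin 6) ⊕ σ → R`
(six variables with the scroll relations for every HARD raised prime, `σ` = all the other variables), with `3 #Hr + #σ ≤ t`.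

`ML/Main/Fin/Main.lean` : `FinGenStmt → FinCellStmt`   (via `Hard.finalF_BB`).
-/

set_option autoImplicit false

noncomputable section

open AlgebraicCurve ModularCurve

namespace Fermat.Agent.ML

open Fermat.Agent.RIB Fermat.Agent.RIB.Rho Fermat.Agent.ML.ESide

local notation "Qbar" => AlgebraicClosure ℚ
local notation "GQ" => (AlgebraicClosure ℚ ≃ₐ[ℚ] AlgebraicClosure ℚ)
local notation "M₂" => Matrix (Fin 2) (Fin 2)

/-- the local variables of a local ring `R` : generators of the maximal ideal modulo `p`, six with the scroll relations for each `q : Hr`. -/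
def FinVars (p t : ℕ) (R : Type) [CommRing R] [IsLocalRing R] : Prop :=
  ∃ (Hr σ : Type) (_ : Fintype Hr) (_ : Fintype σ) (D : Hr → ℤ) (val : Hard.PV Hr σ → R),
    3 * Fintype.card Hr + Fintype.card σ ≤ t ∧
    (∀ q, Hard.Scroll (fun j => val (Sum.inl (q, j))) ((((p : ℤ) * D q : ℤ)) : R)) ∧
    (∀ x, val x ∈ IsLocalRing.maximalIdeal R) ∧
    IsLocalRing.maximalIdeal R ≤ Ideal.span (Set.range val) ⊔ Ideal.span {(p : R)}

/-- **(FIN-GEN)** -/
def FinGenStmt : Prop :=
  ∀ (W : WeierstrassCurve ℤ) (p : ℕ) [Fact p.Prime] (T : Finset ℕ)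
    (b : Module.Basis (Fin 2) (ZMod p) (TorsW W p)) (L₀ : ℕ) [NeZero L₀] (eps : ℕ → ℤ)
    (eP : GQ → ℤ) (X : LCtx W p T b L₀ eps eP) (t : ℕ) (a m n K : ℕ) (qv : Fin t → Nat.Primes),
      Frm p X.C.hp2 T W.apOfModel (rbarB b) t 0 0 a m n K qv →
      ∀ (L : ℕ) [NeZero L], L = cellLevel L₀ (Pfin W (rbarB b) L₀) →
      ∀ G : AddSubgroup (JZero (lvl L (extP qv) t)),
        IsCell p T W.apOfModel (rbarB b) eps eP L qv a (Pfin W (rbarB b) L₀) G →
        ∀ B : Module.Basis (Fin 2) (ZMod (p ^ (K + 1))) (TorsW W (p ^ (K + 1))),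
          (∀ i, redK W p K (B i) = b i) → Rho.EK (p ^ (K + 1)) T W.apOfModel (rEB B) →
          (∀ g, (rEB B g).map (castK p K) = rbarB b g) →
          ∀ (R : Type) [CommRing R] [IsLocalRing R] [Finite R] [Algebra (ZMod (p ^ (K + 1))) R]
            [Module R ↥G] (πE : R →ₐ[ZMod (p ^ (K + 1))] ZMod (p ^ (K + 1))) (ρ : GQ →* M₂ R)
            (Φ : M₂ R →ₐ[R] Module.End R ↥G),
            Rho.IsRhoK (lvl L (extP qv) t) (p ^ (K + 1)) G (rEB B) πE ρ Φ → FinVars p t R

end Fermat.Agent.ML
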