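import Fermat.Agent.ML.Main.Fin.Gen
import Fermat.Agent.ML.Main.Fin.LocPkg
import Fermat.Agent.ML.Main.Fin.Spec
import Fermat.Agent.ML.Main.StepSplit
import Fermat.Agent.ML.Hard.NilF

/-!
# ML / Main / Fin / GenMain : the contract `FinGenStmt` of `ML/Main/Fin/Spec.lean` is a theorem

`Rs := Pfin \ {p}`.   For `v ∈ Rs` : Frobenius scalar ⟹ six variables with the scroll relations, weight `3` (`exists_hard`);
otherwise one variable, weight `1` (`exists_soft`).   `genHyp_fin` + `MCtx.gen_stage` give the other `t - Σ w` variables.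
-/

set_option autoImplicit false

noncomputable section

open AlgebraicCurve ModularCurve

namespace Fermat.Agent.ML.FinGen

open Fermat.Agent.GAL Fermat.Agent.RIB Fermat.Agent.RIB.Rho Fermat.Agent.ML.ESide Fermat.Agent.ML.Rho
  Fermat.Agent.ML.Lift Fermat.Agent.S56 Fermat.Agent.S56.Flat ExtCitation

local notation "Qbar" => AlgebraicClosure ℚ
local notation "M₂" => Matrix (Fin 2) (Fin 2)

/-- **(FIN-GEN)**. -/
theorem finGenStmt : FinGenStmt := by
  classical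
  intro W p _ T b L₀ _ eps eP X t a m n K qv hF L _ hL G hG B hB _ _ R _ _ _ _ _ πE ρ Φ H
  have hp : p.Prime := Fact.out
  obtain ⟨M₀, hM₀, -, -⟩ := X.BP.shape
  have h4 : 4 ∣ L₀ := hM₀ ▸ Dvd.intro_left M₀ rfl
  have hqT : ∀ i, ((qv i : Nat.Primes) : ℕ) ∉ T := (hF.tw L₀ X.BP.levT h4).notT
  have haK : a ≤ K + 1 := hF.hK.trans (Nat.le_succ K)
  have C := topCtx_fin X haK hG hB
  set π0 : R →+* ZMod p := pi0 πE with hπ0
  have hA := H.rhoAct
  have hlift := C.lift H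
  have hcont := C.cont H
  have hadj : Algebra.adjoin R (Set.range ρ) = ⊤ := X.C.adjoin_range_rho' hlift
  have hloc : ∀ a : R, π0 a ≠ 0 → IsUnit a := fun a ha => TopCtx.isUnit_of_pi0 H ha
  have hker : ∀ a : R, π0 a = 0 → IsNilpotent a := fun a ha => TopCtx.isNilpotent_of_pi0 H ha
  have hm : ((p ^ (K + 1) : ℕ) : R) = 0 := by
    rw [← map_natCast (algebraMap (ZMod (p ^ (K + 1))) R), ZMod.natCast_self, map_zero]
  -- the raised primes
  set Rs : Finset Nat.Primes :=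
    (toP T).filter fun v => (v : ℕ) ∈ Pfin W (rbarB b) L₀ ∧ v ≠ pPrime p with hRsdef
  have hRsT : Rs ⊆ toP T := Finset.filter_subset _ _
  have hpR : pPrime p ∉ Rs := fun h => (Finset.mem_filter.1 h).2.2 rfl
  have hmem : ∀ v ∈ Rs, (v : ℕ) ∈ Pfin W (rbarB b) L₀ ∧ (v : ℕ) ≠ p := fun v hv =>
    ⟨(Finset.mem_filter.1 hv).2.1, fun e => (Finset.mem_filter.1 hv).2.2 (Subtype.ext e)⟩
  have hfr : ∀ v : Nat.Primes, ∃ φ : GQ, (primeLocalPlace v).IsFrobeniusAt φ (v : ℕ) := fun v =>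
    S54.exists_isFrobeniusAt_of_liesOverPrime v.2 _ (liesOverPrime_primeLocalPlace v)
  choose φ hφ using hfr
  set Sc : Nat.Primes → Prop := fun v => ∃ c : ZMod p, rbarB b (φ v) = c • (1 : M₂ (ZMod p))
    with hSc
  have hunr : ∀ v ∈ Rs, ∀ σ ∈ inert v, rbarB b σ = 1 := fun v hv σ hσ =>
    unram_of_not_ram (X.not_ram_of_mem_Pfin (hmem v hv).1 (hmem v hv).2) _
      (liesOverPrime_primeLocalPlace v) σ hσ
  have hεε : ∀ v ∈ Rs, eps (v : ℕ) * eps (v : ℕ) = 1 := fun v hv => by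
    have h := (FinGen.mem_Pfin.1 (hmem v hv).1).1
    rcases (X.sgn v h.1 (hmem v hv).2 h.2.1).1 with e | e <;> rw [e] <;> norm_num
  have hsoft : ∀ v : ↥(Rs.filter fun v => ¬ Sc v), ∃ bv : R, π0 bv = 0 ∧ ∀ I : Ideal R, bv ∈ I →
      ∃ M : M₂ R, IsUnit (M.map π0) ∧ ∀ σ ∈ CFT.decomp (v : Nat.Primes), ConjConst ℤ I M (ρ σ) := by
    rintro ⟨v, hv'⟩
    obtain ⟨hv, hns⟩ := Finset.mem_filter.1 hv'
    exact exists_soft hA X.C.hp2 hlift (hmem v hv).2 (hεε v hv)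
      (locSt_fin X hG H (hmem v hv).1 (hmem v hv).2)
      (locUnip_fin X hG H v.2 (hmem v hv).2 (FinGen.mem_Pfin.1 (hmem v hv).1).1.2.1) (hφ v)
      (C.det_frob H v.2 (hmem v hv).2 (liesOverPrime_primeLocalPlace v) (hφ v))
      (fun σ hσ => C.det_inertia H v.2 (hmem v hv).2 (liesOverPrime_primeLocalPlace v) hσ)
      hcont hadj hloc hker hm (coprime_pow v.2 (hmem v hv).2) (hunr v hv)
      (fun c hc => hns ⟨c, hc⟩)
  have hhard : ∀ v : ↥(Rs.filter Sc), ∃ (x : Fin 6 → R) (D : ℤ),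
      Hard.Scroll x ((((p : ℤ) * D : ℤ)) : R) ∧ (∀ j, π0 (x j) = 0) ∧
      ∀ I : Ideal R, (∀ j, x j ∈ I) →
        ∃ M : M₂ R, IsUnit (M.map π0) ∧ ∀ σ ∈ CFT.decomp (v : Nat.Primes), ConjConst ℤ I M (ρ σ) := by
    rintro ⟨v, hv'⟩
    obtain ⟨hv, c, hc⟩ := Finset.mem_filter.1 hv'
    exact exists_hard hA X.C.hp2 hlift (hmem v hv).2 (hεε v hv)
      (locSt_fin X hG H (hmem v hv).1 (hmem v hv).2)
      (locUnip_fin X hG H v.2 (hmem v hv).2 (FinGen.mem_Pfin.1 (hmem v hv).1).1.2.1) (hφ v)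
      (C.det_frob H v.2 (hmem v hv).2 (liesOverPrime_primeLocalPlace v) (hφ v))
      (fun σ hσ => C.det_inertia H v.2 (hmem v hv).2 (liesOverPrime_primeLocalPlace v) hσ)
      hcont hker (hunr v hv) hc
  choose bS hbS0 hbS using hsoft
  choose xH DH hxS hxH0 hxH using hhard
  -- the ideal of the local variables
  set I : Ideal R := Ideal.span (Set.range fun q : ↥(Rs.filter Sc) × Fin 6 => xH q.1 q.2) ⊔
    Ideal.span (Set.range bS) with hI
  have hI0 : ∀ a ∈ I, π0 a = 0 := by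
    have : I ≤ RingHom.ker π0 := by
      refine sup_le (Ideal.span_le.2 ?_) (Ideal.span_le.2 ?_)
      · rintro _ ⟨q, rfl⟩; exact hxH0 q.1 q.2
      · rintro _ ⟨q, rfl⟩; exact hbS0 q
    exact fun a ha => this ha
  have hstrict : ∀ v ∈ Rs, ∃ M : M₂ R, IsUnit (M.map π0) ∧
      ∀ σ ∈ CFT.decomp v, ConjConst ℤ I M (ρ σ) := by
    intro v hv
    by_cases hs : Sc v
    · exact hxH ⟨v, Finset.mem_filter.2 ⟨hv, hs⟩⟩ I fun j =>
        Ideal.mem_sup_left (Ideal.subset_span ⟨(⟨v, Finset.mem_filter.2 ⟨hv, hs⟩⟩, j), rfl⟩)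
    · exact hbS ⟨v, Finset.mem_filter.2 ⟨hv, hs⟩⟩ I
        (Ideal.mem_sup_right (Ideal.subset_span ⟨⟨v, Finset.mem_filter.2 ⟨hv, hs⟩⟩, rfl⟩))
  have Hgen := genHyp_fin X hqT haK hL hG hB H Rs
    (fun v hv hvR hvp hP => absurd (Finset.mem_filter.2 ⟨hv, hP, hvp⟩) hvR) I hI0 hstrict
  -- the weights
  set w : Nat.Primes → ℕ := fun v => if Sc v then 3 else 1 with hw
  have hww : ∀ v ∈ Rs, Nat.card ↥(B1loc (adRep (mapK (kM p) (rbarB b))) v) *
      Nat.card (kM p) ^ w v ≤ Nat.card (kM p) ^ 3 := by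
    intro v hv
    by_cases hs : Sc v
    · obtain ⟨c, hc⟩ := hs
      have : w v = 3 := if_pos ⟨c, hc⟩
      rw [this]
      exact X.C.weight_three v (hunr v hv) (hφ v) hc
    · have : w v = 1 := if_neg hs
      rw [this]
      exact X.C.weight_one v (hunr v hv) (hφ v) fun c hc => hs ⟨c, hc⟩
  have hsum : ∑ v ∈ Rs, w v = 3 * (Rs.filter Sc).card + (Rs.filter fun v => ¬ Sc v).card := by
    rw [hw, Finset.sum_ite, Finset.sum_const, Finset.sum_const, smul_eq_mul, smul_eq_mul, mul_one,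
      mul_comm]
  obtain ⟨hle, x, hx0, -, hgen⟩ := X.C.gen_stage hF.gen hRsT hpR w hww Hgen
  have hnil : IsNilpotent (RingHom.ker π0) := by
    obtain ⟨N, hN⟩ := Hard.exists_pow_eq_bot (RingHom.ker π0) fun a ha => hker a ha
    exact ⟨N, hN⟩
  have hgen' := hgen hnil
  have hmax : ∀ a : R, π0 a = 0 → a ∈ IsLocalRing.maximalIdeal R := by
    intro a ha
    rw [IsLocalRing.mem_maximalIdeal, mem_nonunits_iff]
    intro hu
    have := hu.map π0
    rw [ha] at this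
    exact not_isUnit_zero this
  refine ⟨↥(Rs.filter Sc), ↥(Rs.filter fun v => ¬ Sc v) ⊕ Fin (t - ∑ v ∈ Rs, w v), inferInstance,
    inferInstance, DH, Sum.elim (fun q => xH q.1 q.2) (Sum.elim bS x), ?_, fun q => hxS q, ?_, ?_⟩
  · rw [Fintype.card_sum, Fintype.card_coe, Fintype.card_coe, Fintype.card_fin]
    omega
  · rintro (q | q | i)
    · exact hmax _ (hxH0 q.1 q.2)
    · exact hmax _ (hbS0 q)
    · exact hmax _ (hx0 i)
  · intro a ha
    have ha0 : π0 a = 0 := by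
      by_contra h
      exact ha (hloc a h)
    have hfin : I ⊔ Ideal.span (Set.range x) ⊔ Ideal.span {(p : R)} ≤
        Ideal.span (Set.range (Sum.elim (fun q : ↥(Rs.filter Sc) × Fin 6 => xH q.1 q.2)
          (Sum.elim bS x))) ⊔ Ideal.span {(p : R)} := by
      refine sup_le (sup_le (sup_le ?_ ?_) ?_) le_sup_right
      · refine le_sup_of_le_left (Ideal.span_mono ?_)
        rintro _ ⟨q, rfl⟩
        exact ⟨Sum.inl q, rfl⟩
      · refine le_sup_of_le_left (Ideal.span_mono ?_)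
        rintro _ ⟨q, rfl⟩
        exact ⟨Sum.inr (Sum.inl q), rfl⟩
      · refine le_sup_of_le_left (Ideal.span_mono ?_)
        rintro _ ⟨i, rfl⟩
        exact ⟨Sum.inr (Sum.inr i), rfl⟩
    exact hfin (hgen' ha0)

end Fermat.Agent.ML.FinGen
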