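import Fermat.Agent.ML.Main.Fin.Main
import Fermat.Agent.ML.Main.Fin.GenMain

/-!
# ML / Main / Fin / Done : the contract **(C-FIN)** of `ML/Main/Cell.lean` is a theorem
-/

namespace Fermat.Agent.ML

/-- **(C-FIN)**. -/
theorem finCellStmt : FinCellStmt := finCellStmt_of_gen FinGen.finGenStmt

end Fermat.Agent.ML
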