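import Fermat.Agent.ML.Main.Cell
import Fermat.Agent.ML.Raise.Hemb

/-!
# ML / Main / Fin / Eig : (F-b) of FinCellStmt : from the ring `R` of `Rho.IsRhoK` back to the Galois action

`H : Rho.IsRhoK N m G rE πE ρ Φ`.

* `isEig_of_PP` : `v ∈ G` killed by `PP = ker πE` is a Galois eigenclass : `IsEig (tr rE) v`.
* `IsRhoK.z_smul_coe` : `(tr ρ(τ) - 2) • x = zOp τ x` if `χ(τ) = 1`;   `IsRhoK.z_pow_smul_coe` : `(tr ρ(τ) - 2)^a • x = (zOp τ)^[a] x`.
* `IsRhoK.natCast_smul_coe`, `IsRhoK.intCast_smul_coe`, `IsRhoK.nsmul_coe_eq_zero`, `IsRhoK.algebraMap_smul_coe_int`.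
-/

set_option autoImplicit false
set_option linter.unusedSectionVars false

noncomputable section

open ModularCurve

namespace Fermat.Agent.ML

open Fermat.Agent.GAL Fermat.Agent.GAL.PC Fermat.Agent.RIB Fermat.Agent.RIB.Rho Fermat.Agent.ML.Rho

local notation "Qbar" => AlgebraicClosure ℚ
local notation "GQ" => (AlgebraicClosure ℚ ≃ₐ[ℚ] AlgebraicClosure ℚ)
local notation "M₂" => Matrix (Fin 2) (Fin 2)

variable {N m : ℕ} [NeZero N] [NeZero m] {G : AddSubgroup (JZero N)} {rE : GQ →* M₂ (ZMod m)}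
  {R : Type} [CommRing R] [Algebra (ZMod m) R] [Module R ↥G] {πE : R →ₐ[ZMod m] ZMod m}
  {ρ : GQ →* M₂ R} {Φ : M₂ R →ₐ[R] Module.End R ↥G}

namespace Rho.IsRhoK

theorem natCast_smul_coe (k : ℕ) (x : ↥G) : (((k : R) • x : ↥G) : JZero N) = k • (x : JZero N) := by
  rw [Nat.cast_smul_eq_nsmul, AddSubgroup.coe_nsmul]

theorem intCast_smul_coe (k : ℤ) (x : ↥G) : (((k : R) • x : ↥G) : JZero N) = k • (x : JZero N) := by
  rw [Int.cast_smul_eq_zsmul, AddSubgroup.coe_zsmul]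

/-- `G` is killed by `m`. -/
theorem nsmul_coe_eq_zero (_H : Rho.IsRhoK N m G rE πE ρ Φ) (x : ↥G) : m • (x : JZero N) = 0 := by
  rw [← natCast_smul_coe (R := R) m x]
  have h : ((m : ℕ) : R) = 0 := by
    rw [← map_natCast (algebraMap (ZMod m) R), ZMod.natCast_self, map_zero]
  rw [h, zero_smul R x, AddSubgroup.coe_zero]

/-- the structure map, with an integer lift. -/
theorem algebraMap_smul_coe_int {c : ZMod m} {a : ℤ} (ha : (a : ZMod m) = c) (x : ↥G) :
    ((algebraMap (ZMod m) R c • x : ↥G) : JZero N) = a • (x : JZero N) := by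
  rw [← ha, map_intCast, intCast_smul_coe]

/-- `val` and an integer lift act in the same way. -/
theorem val_nsmul_eq_zsmul (_H : Rho.IsRhoK N m G rE πE ρ Φ) {c : ZMod m} {a : ℤ}
    (ha : (a : ZMod m) = c) (x : ↥G) : c.val • (x : JZero N) = a • (x : JZero N) := by
  rw [← algebraMap_smul_coe_int (R := R) ha x, ← natCast_smul_coe (R := R) c.val x,
    ← map_natCast (algebraMap (ZMod m) R), ZMod.natCast_zmod_val]

/-- `πE (tr ρ(g)) = tr rE(g)`. -/
theorem piE_trace' (H : Rho.IsRhoK N m G rE πE ρ Φ) (g : GQ) : πE (ρ g).trace = (rE g).trace := by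
  rw [← H.toE g, Matrix.trace_fin_two, Matrix.trace_fin_two, map_add]
  rfl

/-- the element `h • x` of `G`. -/
theorem coe_phi_rho (H : Rho.IsRhoK N m G rE πE ρ Φ) (h : GQ) (x : ↥G) :
    ((Φ (ρ h) x : ↥G) : JZero N) = h • (x : JZero N) := H.act h x

/-- `(tr ρ(τ) - 2) • x = z(τ) x` if `χ(τ) = 1`. -/
theorem z_smul_coe (H : Rho.IsRhoK N m G rE πE ρ Φ) {τ : GQ} (hτ : chiM m τ = 1) (x : ↥G) :
    ((((ρ τ).trace - 2) • x : ↥G) : JZero N) = zOp τ (x : JZero N) := by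
  have h1 : (chiM m τ).val • τ⁻¹ • (x : JZero N) = τ⁻¹ • (x : JZero N) := by
    have h2 := val_nsmul_eq_zsmul H (c := chiM m τ) (a := 1) (by rw [hτ, Int.cast_one])
      (Φ (ρ τ⁻¹) x)
    rw [H.act, one_zsmul] at h2
    exact h2
  have h3 : (((2 : R) • x : ↥G) : JZero N) = (2 : ℕ) • (x : JZero N) := by
    have := natCast_smul_coe (R := R) 2 x
    rwa [Nat.cast_ofNat] at this
  rw [sub_smul, AddSubgroup.coe_sub, Raise.trace_smul_coe H, h1, h3]
  rfl

/-- `(tr ρ(τ) - 2)^a • x = z(τ)^a x` if `χ(τ) = 1`. -/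
theorem z_pow_smul_coe (H : Rho.IsRhoK N m G rE πE ρ Φ) {τ : GQ} (hτ : chiM m τ = 1) (a : ℕ)
    (x : ↥G) : ((((ρ τ).trace - 2) ^ a • x : ↥G) : JZero N) = (zOp τ)^[a] (x : JZero N) := by
  induction a with
  | zero => rw [pow_zero, one_smul, Function.iterate_zero, id]
  | succ a ih => rw [pow_succ', mul_smul, z_smul_coe H hτ, ih, Function.iterate_succ_apply']

end Rho.IsRhoK

open Rho.IsRhoK in
/-- **(F-b)** : a class killed by `PP = ker πE` is a Galois eigenclass for `rE`. -/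
theorem isEig_of_PP (H : Rho.IsRhoK N m G rE πE ρ Φ) (v : ↥G)
    (hv : ∀ s : R, πE s = 0 → s • v = 0) : IsEig (fun g => (rE g).trace) (v : JZero N) := by
  refine ⟨nsmul_coe_eq_zero H v, fun h g a c ha hc => ?_⟩
  -- `y = h • v`
  set y : ↥G := Φ (ρ h) v with hy
  have hyc : (y : JZero N) = h • (v : JZero N) := H.act h v
  have hyk : ∀ s : R, πE s = 0 → s • y = 0 := fun s hs => by
    rw [hy, ← map_smul, hv s hs, map_zero]
  have h1 : (ρ g).trace • y = algebraMap (ZMod m) R (rE g).trace • y := by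
    rw [← sub_eq_zero, ← sub_smul]
    refine hyk _ ?_
    rw [map_sub, piE_trace' H, AlgHom.commutes, sub_eq_zero]
    rfl
  have h2 := Raise.trace_smul_coe H g y
  rw [h1, algebraMap_smul_coe_int (R := R) hc y] at h2
  have h3 : (chiM m g).val • g⁻¹ • (y : JZero N) = a • g⁻¹ • (y : JZero N) := by
    have h4 := val_nsmul_eq_zsmul H ha (Φ (ρ g⁻¹) y)
    rwa [H.act] at h4
  rw [h3, hyc] at h2
  exact h2.symm

end Fermat.Agent.ML
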