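import Mathlib

/-!
# ML / Main / Fin / Ring : the finite local `ℤ/p^(K+1)`-algebra `R` with its point `πE`   (Mathlib only)

`fin_p_mem`, `fin_res`, `fin_dvd_piE`, `fin_exists_pow`; the numerics of `FinCell` : `fin_arith`.
-/

set_option autoImplicit false

namespace Fermat.Agent.ML.Fin

section Ring

variable {p K : ℕ} {A : Type*} [CommRing A] [IsLocalRing A]

theorem fin_mem_of_isNilpotent {s : A} (h : IsNilpotent s) : s ∈ IsLocalRing.maximalIdeal A := by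
  rw [IsLocalRing.mem_maximalIdeal, mem_nonunits_iff]
  intro hu
  obtain ⟨n, hn⟩ := h
  have := hu.pow n
  rw [hn] at this
  exact not_isUnit_zero this

theorem fin_p_mem [Algebra (ZMod (p ^ (K + 1))) A] : (p : A) ∈ IsLocalRing.maximalIdeal A := by
  refine fin_mem_of_isNilpotent ⟨K + 1, ?_⟩
  have h : ((p ^ (K + 1) : ℕ) : ZMod (p ^ (K + 1))) = 0 := ZMod.natCast_self _
  have h2 := congrArg (algebraMap (ZMod (p ^ (K + 1))) A) h
  rw [map_natCast, map_zero, Nat.cast_pow] at h2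
  exact h2

theorem fin_exists_pow [Finite A] : ∃ E : ℕ, IsLocalRing.maximalIdeal A ^ E = ⊥ := by
  have h := IsArtinianRing.isNilpotent_jacobson_bot (R := A)
  rw [IsLocalRing.jacobson_eq_maximalIdeal ⊥ bot_ne_top] at h
  obtain ⟨n, hn⟩ := h
  exact ⟨n, hn⟩

theorem fin_isNilpotent_of_mem [Finite A] {s : A} (h : s ∈ IsLocalRing.maximalIdeal A) :
    IsNilpotent s := by
  obtain ⟨E, hE⟩ := fin_exists_pow (A := A)
  refine ⟨E, ?_⟩
  have := Ideal.pow_mem_pow h E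
  rwa [hE, Ideal.mem_bot] at this

theorem fin_res [Algebra (ZMod (p ^ (K + 1))) A]
    (πE : A →ₐ[ZMod (p ^ (K + 1))] ZMod (p ^ (K + 1)))
    (hnil : ∀ a : A, πE a = 0 → IsNilpotent a) (s : A) :
    ∃ c : ℤ, s - (c : A) ∈ IsLocalRing.maximalIdeal A := by
  obtain ⟨c, hc⟩ := ZMod.intCast_surjective (πE s)
  refine ⟨c, fin_mem_of_isNilpotent (hnil _ ?_)⟩
  rw [map_sub, map_intCast, hc, sub_self]

theorem fin_dvd_piE [Finite A] [Algebra (ZMod (p ^ (K + 1))) A] (hp : p.Prime)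
    (πE : A →ₐ[ZMod (p ^ (K + 1))] ZMod (p ^ (K + 1))) {s : A}
    (h : s ∈ IsLocalRing.maximalIdeal A) : (p : ZMod (p ^ (K + 1))) ∣ πE s := by
  have : NeZero (p ^ (K + 1)) := ⟨pow_ne_zero _ hp.ne_zero⟩
  obtain ⟨n, hn⟩ := (fin_isNilpotent_of_mem h).map πE
  rw [← ZMod.natCast_zmod_val (πE s)] at hn ⊢
  rw [← Nat.cast_pow, ZMod.natCast_eq_zero_iff] at hn
  have h1 : p ∣ (πE s).val ^ n := (dvd_pow_self p K.succ_ne_zero).trans hn
  obtain ⟨c, hc⟩ := hp.dvd_of_dvd_pow h1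
  rw [hc, Nat.cast_mul]
  exact Dvd.intro _ rfl

end Ring

/-! ### numerics -/

/-- `w^N ≤ p^(w N)`. -/
theorem fin_pow_le {p : ℕ} (hp : 2 ≤ p) (w N : ℕ) : w ^ N ≤ p ^ (w * N) := by
  rw [pow_mul]
  refine Nat.pow_le_pow_left ?_ N
  exact (Nat.lt_pow_self hp).le

/-- `p^δ < 2^(p δ + 1)`. -/
theorem fin_pow_lt (p δ : ℕ) : p ^ δ < 2 ^ (p * δ + 1) := by
  calc p ^ δ ≤ (2 ^ p) ^ δ := Nat.pow_le_pow_left (Nat.lt_pow_self (le_refl 2)).le δ
    _ = 2 ^ (p * δ) := by rw [pow_mul]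
    _ < 2 ^ (p * δ + 1) := Nat.pow_lt_pow_right (by norm_num) (Nat.lt_succ_self _)

/-- the constant `C₀` of `FinCell`. -/
def finC (k δ e t : ℕ) : ℕ := k * δ * (4 ^ t * (e * (t + 1) + 1) ^ t) * δ

/-- the Hilbert function bound. -/
theorem fin_arith {k δ e t a s r mm : ℕ} (hsr : 3 * s + r ≤ t)
    (hC : finC k δ e t * (a + 1) ^ t < mm) :
    k * δ * (4 ^ s * (e * ((t + 1) * a + 1) + 1) ^ (3 * s + r)) * δ < mm := by
  refine lt_of_le_of_lt ?_ hC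
  have h1 : e * ((t + 1) * a + 1) + 1 ≤ (e * (t + 1) + 1) * (a + 1) := by
    have : (e * (t + 1) + 1) * (a + 1) = e * ((t + 1) * a + 1) + 1 + (e * t + a) := by ring
    omega
  have h2 : (e * ((t + 1) * a + 1) + 1) ^ (3 * s + r) ≤ (e * ((t + 1) * a + 1) + 1) ^ t :=
    Nat.pow_le_pow_right (Nat.succ_pos _) hsr
  have h3 : (e * ((t + 1) * a + 1) + 1) ^ t ≤ (e * (t + 1) + 1) ^ t * (a + 1) ^ t := by
    rw [← mul_pow]
    exact Nat.pow_le_pow_left h1 t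
  have h4 : 4 ^ s ≤ 4 ^ t := Nat.pow_le_pow_right (by norm_num) (by omega)
  have h5 : 4 ^ s * (e * ((t + 1) * a + 1) + 1) ^ (3 * s + r)
      ≤ 4 ^ t * ((e * (t + 1) + 1) ^ t * (a + 1) ^ t) := Nat.mul_le_mul h4 (h2.trans h3)
  calc k * δ * (4 ^ s * (e * ((t + 1) * a + 1) + 1) ^ (3 * s + r)) * δ
      ≤ k * δ * (4 ^ t * ((e * (t + 1) + 1) ^ t * (a + 1) ^ t)) * δ :=
        Nat.mul_le_mul_right _ (Nat.mul_le_mul_left _ h5)
    _ = finC k δ e t * (a + 1) ^ t := by rw [finC]; ring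

end Fermat.Agent.ML.Fin
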