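import Fermat.Agent.ML.Main.Fin.Spec
import Fermat.Agent.ML.Main.Fin.Eig
import Fermat.Agent.ML.Main.Fin.Ring
import Fermat.Agent.ML.Main.CellAsm
import Fermat.Agent.ML.Hard.Inst
import Fermat.Agent.ML.Hard.NilF
import Fermat.Agent.ML.Low.TWLoc.Out
import Fermat.Agent.ML.Low.Blocks

/-!
# ML / Main / Fin / Main : `FinGenStmt → FinCellStmt`

The joint ring `R` of the cell `G` and of `W[p^(K+1)]` (`Rho.exists_rhoK`), the local variables of `FinGenStmt`, the socle bound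
`#G[p, z] ≤ #WS(L)^(6^t)` (`Low.card_tower`, `MCtx.WS_eq`), `Hard.nilF`, and `Hard.finalF_BB` at the point `πE`.
-/

set_option autoImplicit false

noncomputable section

open AlgebraicCurve ModularCurve

namespace Fermat.Agent.ML

open Fermat.Agent.RIB Fermat.Agent.RIB.Rho Fermat.Agent.ML.ESide Fermat.Agent.GAL Submodule

local notation "Qbar" => AlgebraicClosure ℚ
local notation "GQ" => (AlgebraicClosure ℚ ≃ₐ[ℚ] AlgebraicClosure ℚ)
local notation "M₂" => Matrix (Fin 2) (Fin 2)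

/-- **the socle bound** : `#G[p, z] ≤ #WS(L)^(6^t)`. -/
theorem fin_card_soc {p : ℕ} [Fact p.Prime] {T : Finset ℕ} {θ : ℕ → ℤ}
    {rbar0 : GQ →* M₂ (ZMod p)} (EC : MCtx p T θ rbar0) {L t n : ℕ} [NeZero L]
    {qv : Fin t → Nat.Primes} (TC : MTW p T θ L t n qv) {mm : ℕ} [NeZero mm]
    {G : AddSubgroup (JZero (lvl L (extP qv) t))}
    (hG : G ≤ thetaPart (lvl L (extP qv) t) p (↑(cutS T qv) : Set ℕ) θ)
    {rE : GQ →* M₂ (ZMod mm)} {R : Type} [CommRing R] [Algebra (ZMod mm) R] [Module R ↥G]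
    {πE : R →ₐ[ZMod mm] ZMod mm} {ρ : GQ →* M₂ R} {Φ : M₂ R →ₐ[R] Module.End R ↥G}
    (H : Rho.IsRhoK (lvl L (extP qv) t) mm G rE πE ρ Φ) (τ : ℕ → GQ)
    (h1 : ∀ i, rbar0 (τ i) = 1)
    (h3 : ∀ i < t, ∀ x ∈ WS (lvl L (extP qv) i * extP qv i * extP qv i) p
      (↑(cutS T qv) : Set ℕ) θ, τ i • x = x → ∀ σ ∈ (plcP qv i).inertiaSubgroupIn ℚ, σ • x = x)
    (hχ : ∀ i : Fin t, chiM mm (τ i) = 1) :
    Nat.card ↥(torsionBy R ↥G (p : R) ⊓ ⨅ i : Fin t, torsionBy R ↥G ((ρ (τ i)).trace - 2)) ≤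
      Nat.card (WS L p (↑T : Set ℕ) θ) ^ 6 ^ t := by
  have hp : p.Prime := Fact.out
  have hc := Low.card_tower EC TC τ h1 h3 t le_rfl
  rw [EC.WS_eq (subset_cutS T qv) TC.lev] at hc
  refine le_trans ?_ hc
  have : Finite ↥(TWLoc.kz (τ '' Set.Iio t)
      (WS (lvl L (extP qv) t) p (↑(cutS T qv) : Set ℕ) θ)) :=
    Set.Finite.to_subtype ((finite_torsion_JZero (lvl L (extP qv) t) p hp.ne_zero).subset
      fun x hx => hx.1.2)
  refine Nat.card_le_card_of_injective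
    (fun x => (⟨((x.1 : ↥G) : JZero (lvl L (extP qv) t)), ?_⟩ :
      ↥(TWLoc.kz (τ '' Set.Iio t) (WS (lvl L (extP qv) t) p (↑(cutS T qv) : Set ℕ) θ))))
    (fun x y h => Subtype.ext (Subtype.ext (congrArg
      (fun w : ↥(TWLoc.kz (τ '' Set.Iio t)
        (WS (lvl L (extP qv) t) p (↑(cutS T qv) : Set ℕ) θ)) => w.1) h)))
  obtain ⟨hx1, hx2⟩ := Submodule.mem_inf.1 x.2
  rw [mem_torsionBy_iff] at hx1
  refine ⟨⟨hG x.1.2, ?_⟩, ?_⟩
  · rw [← Rho.IsRhoK.natCast_smul_coe (R := R) p x.1, hx1, AddSubgroup.coe_zero]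
  · rintro _ ⟨i, hi, rfl⟩
    have h4 := (Submodule.mem_iInf _).1 hx2 ⟨i, hi⟩
    rw [mem_torsionBy_iff] at h4
    have h5 := Rho.IsRhoK.z_smul_coe H (hχ ⟨i, hi⟩) x.1
    rw [h4, AddSubgroup.coe_zero] at h5
    exact h5.symm

/-- **(C-FIN) from (FIN-GEN).** -/
theorem finCellStmt_of_gen (hGen : FinGenStmt) : FinCellStmt := by
  intro W p _ T b L₀ _ eps eP X t k
  classical
  have hp : p.Prime := Fact.out
  obtain ⟨M, hLM, -, -⟩ := X.BP.shape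
  have h2L : 2 ∣ L₀ := hLM ▸ Dvd.dvd.mul_left (by norm_num) M
  have hLe : cellLevel L₀ (Pfin W (rbarB b) L₀) = finLevel W L₀ := cellLevel_Pfin W (rbarB b) h2L
  have : NeZero (cellLevel L₀ (Pfin W (rbarB b) L₀)) :=
    ⟨by rw [hLe]; exact finLevel_ne_zero W (NeZero.ne L₀)⟩
  obtain ⟨w, hw⟩ : ∃ w : ℕ, w = Nat.card
    (WS (cellLevel L₀ (Pfin W (rbarB b) L₀)) p (↑T : Set ℕ) W.apOfModel) := ⟨_, rfl⟩
  obtain ⟨δ, hδ⟩ : ∃ δ : ℕ, δ = w * 6 ^ t := ⟨_, rfl⟩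
  obtain ⟨e, he⟩ : ∃ e : ℕ, e = p * δ + 1 := ⟨_, rfl⟩
  refine ⟨k * δ, Fin.finC k δ e t, ?_⟩
  intro a m n K qv hfr L _ hL G hcell hbig B hB1 hB2 hB3
  subst hL
  have h4L : 4 ∣ cellLevel L₀ (Pfin W (rbarB b) L₀) := by
    rw [hLe, finLevel, hLM]
    exact Dvd.dvd.mul_right (Dvd.intro_left M rfl) _
  have hlevT : ∀ r : ℕ, r.Prime → r ∣ cellLevel L₀ (Pfin W (rbarB b) L₀) * p → r ∈ T :=
    fun r hr hd => mem_T_of_dvd_finLevel X.H.hΔ X.hbadT X.BP.levT hr (hLe ▸ hd)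
  have TC := hfr.tw _ hlevT h4L
  have hXm : ∀ x ∈ G, p ^ (K + 1) • x = 0 := by
    intro x hx
    have h1 := (hcell.box x hx).1
    have h2 : K + 1 = a + (K + 1 - a) := by have := hfr.hK; omega
    rw [h2, pow_add, mul_nsmul, h1, smul_zero]
  have hEK : Rho.EK (p ^ (K + 1)) (cutS T qv) W.apOfModel (rEB B) :=
    ⟨hB2.cont, hB2.det, fun r hr hrS => hB2.frob r hr fun h => hrS (subset_cutS T qv h), hB2.nf⟩
  obtain ⟨R, _, _, _, _, _, πE, ρ, Φ, H⟩ := Rho.exists_rhoK hp rfl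
    (dvd_pow_self p K.succ_ne_zero) (cutS T qv) (fun r hr hd => TC.mem_cutS t hr hd) W.apOfModel
    hEK G hcell.gal hXm (fun r hr x hx => (hcell.le hx).2 r hr)
  obtain ⟨Hr, σ, _, _, D, val, hcard, hscr, hval, hgen⟩ := hGen W p T b L₀ eps eP X t a m n K qv
    (hfr.mono (Nat.zero_le _) (Nat.zero_le _)) _ rfl G hcell B hB1 hB2 hB3 R πE ρ Φ H
  obtain ⟨τ, hτ1, hτ2, hτ3⟩ := Low.exists_taus X.C TC
  have hodd : Odd (p ^ (K + 1)) := odd_pow_of_ne_two X.C.hp2 _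
  have hA : ∀ i : Fin t, (plcP qv i).LiesOverPrime ((qv i : Nat.Primes) : ℕ) := fun i => by
    have := plcP_liesOver qv i.2
    rwa [extP_of_lt qv i] at this
  have hrE : ∀ i : Fin t, rEB B (τ i) = 1 := fun i => by
    have hlT := TC.notT i
    have hlp : ((qv i : Nat.Primes) : ℕ) ≠ p := fun h => hlT (h ▸ X.C.p_mem)
    exact rEB_unram B hodd (qv i).2
      (Nat.Coprime.pow_left _ ((Nat.coprime_primes hp (qv i).2).2 (Ne.symm hlp)))
      (fun hd => hlT (X.hbadT _ (qv i).2 hd)) _ (hA i) (hτ2 i i.2)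
  have hχ : ∀ i : Fin t, chiM (p ^ (K + 1)) (τ i) = 1 := fun i => by
    rw [← hB2.det (τ i), hrE i, Matrix.det_one]
  set mA := IsLocalRing.maximalIdeal R with hmA
  set z : Fin t → R := fun i => (ρ (τ i)).trace - 2 with hz
  have hpm : (p : R) ∈ mA := Fin.fin_p_mem (K := K)
  have hres : ∀ s : R, ∃ c : ℤ, s - (c : R) ∈ mA := Fin.fin_res πE H.nil
  have hzm : ∀ i, z i ∈ mA := fun i => Fin.fin_mem_of_isNilpotent (H.nil _ (by
    rw [hz]
    simp only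
    rw [map_sub, Rho.IsRhoK.piE_trace' H, hrE i, Matrix.trace_one, Fintype.card_fin, map_ofNat]
    norm_num))
  obtain ⟨E₀, hE₀⟩ := Fin.fin_exists_pow (A := R)
  have hE₀' : ∀ s ∈ mA ^ E₀, ∀ x : ↥G, s • x = 0 := fun s hs x => by
    rw [hE₀, Ideal.mem_bot] at hs
    rw [hs]
    exact zero_smul R x
  have hpa : ∀ x : ↥G, (p : R) ^ a • x = 0 := fun x => Subtype.ext (by
    rw [← Nat.cast_pow, Rho.IsRhoK.natCast_smul_coe, (hcell.box x x.2).1, AddSubgroup.coe_zero])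
  have hza : ∀ (i : Fin t) (x : ↥G), z i ^ a • x = 0 := fun i x => Subtype.ext (by
    rw [Rho.IsRhoK.z_pow_smul_coe H (hχ i) a x, AddSubgroup.coe_zero]
    exact (hcell.box x x.2).2 i _ (hA i) _ (hτ2 i i.2))
  have hsoc0 : Nat.card ↥(torsionBy R ↥G (p : R) ⊓ ⨅ i : Fin t, torsionBy R ↥G (z i)) ≤ p ^ δ := by
    refine (fin_card_soc X.C TC hcell.le H τ hτ1 hτ3 hχ).trans ?_
    rw [← hw, hδ]
    exact Fin.fin_pow_le hp.two_le w (6 ^ t)
  have : Finite ↥G :=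
    Set.Finite.to_subtype ((finite_torsion_JZero _ (p ^ (K + 1))
      (pow_ne_zero _ hp.ne_zero)).subset fun x hx => hXm x hx)
  have hE := Hard.nilF (e := e) z mA hpa hza
    (lt_of_le_of_lt hsoc0 (he ▸ Fin.fin_pow_lt p δ)) hE₀'
  have hsoc : Nat.card {x : ↥G // ∀ s ∈ mA, s • x = 0} ≤ p ^ δ :=
    (Hard.card_soc_le_of_le z mA hpm hzm).trans hsoc0
  have hbig' : p ^ (k * δ * Hard.SM.HB (Fintype.card Hr) (Fintype.card σ)
      (e * ((t + 1) * a + 1)) * δ) < Nat.card (⊤ : Submodule R ↥G) := by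
    have h1 : Nat.card (⊤ : Submodule R ↥G) = Nat.card ↥G :=
      Nat.card_congr (Submodule.topEquiv (R := R) (M := ↥G)).toEquiv
    rw [h1]
    refine lt_of_lt_of_le (Nat.pow_lt_pow_right hp.one_lt ?_) hbig
    exact Fin.fin_arith hcard hfr.hC
  obtain ⟨v, hv1, hv2⟩ := Hard.finalF_BB p Hr σ D (⊥ : Ideal R) mA val (X := ↥G) (n := K + 1)
    (δ := δ) (E₀ := E₀) (E := e * ((t + 1) * a + 1)) (E₁ := E₀) (c := k) hp hpm hres hE₀' hsoc ⊤
    (fun s hs x _ => hE s hs x)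
    (fun s hs x _ => by rw [Ideal.mem_bot.1 hs]; exact zero_smul R x)
    (fun q => by
      have := (hscr q).map (Ideal.Quotient.mk (⊥ : Ideal R))
      rwa [map_intCast] at this)
    hval (by rw [bot_sup_eq]; exact hgen) hE₀.le (πE : R →+* ZMod (p ^ (K + 1)))
    (fun s hs => by rw [Ideal.mem_bot.1 hs, map_zero])
    (fun s hs => Fin.fin_dvd_piE hp πE hs)
    (by have := hfr.ha; have := hfr.hK; omega) hbig'
  refine ⟨(v : JZero _), v.2, isEig_of_PP H v hv1, fun h => hv2 (Subtype.ext ?_)⟩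
  rw [← Nat.cast_pow, Rho.IsRhoK.natCast_smul_coe, h, AddSubgroup.coe_zero]

end Fermat.Agent.ML
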